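import Fermat.Agent.S52.B.Rigid
import Fermat.Agent.S52.Interface
import Fermat.Agent.S52.Klein.ExistsUV

/-!
# S52, Node B: assembly of `nodeB` from the level 5 table (B1) and the line identities (K1)

The table is abstracted as two families `tX tY` of functions `R → R → R → R` (arguments
`ζ u v`), natural in the commutative ring `R`, such that over every field they are the
coordinates of a full level 5 structure on `y² = x³ - 27 kH x + 54 kT`.
-/

set_option autoImplicit false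

open Polynomial WeierstrassCurve WeierstrassCurve.Affine WeierstrassCurve.Affine.Point

namespace Fermat.Agent.S52.B

section maps

variable {R S : Type*} [CommRing R] [CommRing S] (f : R →+* S)

theorem map_kf (u v : R) : f (kf u v) = kf (f u) (f v) := by
  simp only [kf, map_add, map_sub, map_mul, map_pow, map_ofNat]

theorem map_kfu (u v : R) : f (kfu u v) = kfu (f u) (f v) := by
  simp only [kfu, map_add, map_sub, map_mul, map_pow, map_ofNat]

theorem map_kfv (u v : R) : f (kfv u v) = kfv (f u) (f v) := by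
  simp only [kfv, map_add, map_sub, map_mul, map_pow, map_ofNat]

theorem map_kH (u v : R) : f (kH u v) = kH (f u) (f v) := by
  simp only [kH, map_add, map_sub, map_mul, map_pow, map_ofNat]

theorem map_kT (u v : R) : f (kT u v) = kT (f u) (f v) := by
  simp only [kT, map_add, map_sub, map_mul, map_pow, map_ofNat]

theorem map_lineU (u v t : R) : f (lineU u v t) = lineU (f u) (f v) (f t) := by
  simp only [lineU, map_add, map_mul, map_kfv]

theorem map_lineV (u v t : R) : f (lineV u v t) = lineV (f u) (f v) (f t) := by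
  simp only [lineV, map_sub, map_mul, map_kfu]

end maps

theorem famD_zero {R : Type*} [CommRing R] (H T : R) : famD H T 0 = 1 := by
  simp [famD, Finset.sum_range_succ, famDc]

theorem famA_zero {R : Type*} [CommRing R] (H T : R) : famA H T 0 = H := by
  rw [famA_eq, zero_mul, add_zero]

theorem famB_zero {R : Type*} [CommRing R] (H T : R) : famB H T 0 = T := by
  rw [famB_eq, zero_mul, add_zero]

theorem shortW_baseChange {k K : Type*} [CommRing k] [CommRing K] [Algebra k K] (c4 c6 : k) :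
    ((shortW c4 c6).toAffine⁄K) = (shortW (algebraMap k K c4) (algebraMap k K c6)).toAffine := by
  ext <;> simp [shortW, map_ofNat]

/-- Frobenius on a level structure whose coordinates are permuted by Frobenius. -/
theorem frob_of_coords {ℓ : ℕ} [Fact ℓ.Prime] (V : WeierstrassCurve (ZMod ℓ)) (K : Type)
    [Field K] [Algebra (ZMod ℓ) K] [DecidableEq K] (x y : ZMod 5 × ZMod 5 → K)
    (M : ZMod 5 × ZMod 5 → ZMod 5 × ZMod 5) (hM0 : M 0 = 0)
    (hM : ∀ w, w ≠ 0 → M w ≠ 0 ∧
      FiniteField.frobeniusAlgHom (ZMod ℓ) K (x w) = x (M w) ∧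
      FiniteField.frobeniusAlgHom (ZMod ℓ) K (y w) = y (M w))
    (Λ : ZMod 5 × ZMod 5 →+ (V.toAffine⁄K).Point)
    (hc : ∀ w, w ≠ 0 → ∃ h, Λ w = Point.some (x w) (y w) h) (w : ZMod 5 × ZMod 5) :
    frobPt V K (Λ w) = Λ (M w) := by
  by_cases hw : w = 0
  · subst hw
    rw [hM0, _root_.map_zero, _root_.map_zero]
  · obtain ⟨hMw, hx, hy⟩ := hM w hw
    obtain ⟨h, e⟩ := hc w hw
    obtain ⟨h', e'⟩ := hc (M w) hMw
    rw [e, e']
    unfold frobPt
    rw [Point.map_some, Point.some.injEq]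
    exact ⟨hx, hy⟩

/-- **Node B from the table.** -/
theorem nodeB_of_table
    (tX tY : ZMod 5 × ZMod 5 → ∀ (R : Type) [CommRing R], R → R → R → R)
    (mapX : ∀ (w : ZMod 5 × ZMod 5) (R S : Type) [CommRing R] [CommRing S] (f : R →+* S)
      (z u v : R), f (tX w R z u v) = tX w S (f z) (f u) (f v))
    (mapY : ∀ (w : ZMod 5 × ZMod 5) (R S : Type) [CommRing R] [CommRing S] (f : R →+* S)
      (z u v : R), f (tY w R z u v) = tY w S (f z) (f u) (f v))
    (ℓ : ℕ) [Fact ℓ.Prime] (hℓ : ¬ ℓ ∣ 30) (c4 c6 s : ZMod ℓ)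
    (hΔ : c4 ^ 3 - c6 ^ 2 ≠ 0)
    (hΔ' : famA c4 (-c6) s ^ 3 - famB c4 (-c6) s ^ 2 ≠ 0)
    (K : Type) [Field K] [Algebra (ZMod ℓ) K] [DecidableEq K] [IsAlgClosed K]
    (lam : ∀ z u v : K, z ^ 4 + z ^ 3 + z ^ 2 + z + 1 = 0 → kf u v ≠ 0 →
      HasL5 (shortW (kH u v) (-kT u v)).toAffine (fun w => tX w K z u v) (fun w => tY w K z u v))
    (hlH : ∀ u v t : K, kH (lineU u v t) (lineV u v t) = famA (kH u v) (kT u v) t)
    (hlT : ∀ u v t : K, kT (lineU u v t) (lineV u v t) = famB (kH u v) (kT u v) t)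
    (hlf : ∀ u v t : K, kf (lineU u v t) (lineV u v t) = kf u v * famD (kH u v) (kT u v) t) :
    ∃ (Λ : (ZMod 5 × ZMod 5) →+ ((shortW c4 c6).toAffine⁄K).Point)
      (Λ' : (ZMod 5 × ZMod 5) →+
        ((shortW (famA c4 (-c6) s) (-famB c4 (-c6) s)).toAffine⁄K).Point)
      (M : ZMod 5 × ZMod 5 → ZMod 5 × ZMod 5),
      Function.Injective Λ ∧ Function.Injective Λ' ∧
      (∀ w, frobPt _ K (Λ w) = Λ (M w)) ∧ (∀ w, frobPt _ K (Λ' w) = Λ' (M w)) := by
  -- characteristic
  have hinj : Function.Injective (algebraMap (ZMod ℓ) K) := (algebraMap (ZMod ℓ) K).injective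
  have hnat : ∀ n : ℕ, ¬ ℓ ∣ n → (n : K) ≠ 0 := by
    intro n hn h0
    apply hn
    have : (algebraMap (ZMod ℓ) K) (n : ZMod ℓ) = 0 := by rw [map_natCast]; exact h0
    rw [map_eq_zero_iff _ hinj] at this
    exact (ZMod.natCast_eq_zero_iff n ℓ).1 this
  have h30 : (30 : K) ≠ 0 := by exact_mod_cast hnat 30 hℓ
  have h15 : (15 : K) ≠ 0 := by
    exact_mod_cast hnat 15 (fun h => hℓ (h.trans (by norm_num)))
  have h1728 : (1728 : K) ≠ 0 := by
    intro h
    apply h30
    have : (30 : K) ^ 6 = 0 := by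
      have e : (30 : K) ^ 6 = 1728 * 421875 := by norm_num
      rw [e, h, zero_mul]
    exact pow_eq_zero_iff (by norm_num) |>.1 this
  set F := FiniteField.frobeniusAlgHom (ZMod ℓ) K with hF
  set φ : K →+* K := F.toRingHom with hφ
  have hφF : ∀ x, F x = φ x := fun _ => rfl
  have hφc : ∀ c : ZMod ℓ, φ (algebraMap (ZMod ℓ) K c) = algebraMap (ZMod ℓ) K c := F.commutes
  set H : K := algebraMap (ZMod ℓ) K c4 with hH
  set T : K := algebraMap (ZMod ℓ) K (-c6) with hT
  have hHT : H ^ 3 - T ^ 2 ≠ 0 := by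
    rw [hH, hT, ← map_pow, ← map_pow, ← map_sub, neg_sq]
    exact fun h => hΔ ((map_eq_zero_iff _ hinj).1 h)
  obtain ⟨u₀, v₀, hu, hv⟩ := exists_uv h30 H T hHT
  have hf₀ : kf u₀ v₀ ≠ 0 := by
    intro h
    apply hHT
    rw [← hu, ← hv, klein_relation, h]
    ring
  obtain ⟨ζ, hζ⟩ : ∃ ζ : K, ζ ^ 4 + ζ ^ 3 + ζ ^ 2 + ζ + 1 = 0 := by
    obtain ⟨ζ, hζ⟩ := IsAlgClosed.exists_root (X ^ 4 + X ^ 3 + X ^ 2 + X + 1 : K[X]) (by
      have : (X ^ 4 + X ^ 3 + X ^ 2 + X + 1 : K[X]).degree = 4 := by compute_degree!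
      rw [this]; norm_num)
    refine ⟨ζ, ?_⟩
    simpa [IsRoot] using hζ
  -- the conjugate data
  have hζ' : (φ ζ) ^ 4 + (φ ζ) ^ 3 + (φ ζ) ^ 2 + φ ζ + 1 = 0 := by
    have := congrArg φ hζ
    simpa only [map_add, map_pow, map_one, _root_.map_zero] using this
  have hu' : kH (φ u₀) (φ v₀) = H := by
    rw [← map_kH φ, hu]
    exact hφc c4
  have hv' : kT (φ u₀) (φ v₀) = T := by
    rw [← map_kT φ, hv]
    exact hφc (-c6)
  have hf₀' : kf (φ u₀) (φ v₀) ≠ 0 := by
    rw [← map_kf φ]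
    exact fun h => hf₀ ((map_eq_zero_iff _ φ.injective).1 h)
  -- the family
  set E : K → WeierstrassCurve.Affine K := fun t => (shortW (famA H T t) (-famB H T t)).toAffine
    with hE
  set G : Set K := {t | famD H T t ≠ 0} with hG
  have hGinf : G.Infinite := by
    set D : K[X] := famD (C H) (C T) X with hD
    have hDe : ∀ t, D.eval t = famD H T t := by
      intro t
      have := map_famD (evalRingHom t) (C H) (C T) X
      simpa only [coe_evalRingHom, eval_C, eval_X] using this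
    have hD0 : D ≠ 0 := by
      intro h
      have := hDe 0
      rw [h, eval_zero, famD_zero] at this
      exact zero_ne_one this
    have hfin : {t | D.IsRoot t}.Finite := Polynomial.finite_setOfPred_isRoot hD0
    have : G = {t | D.IsRoot t}ᶜ := by
      ext t
      simp only [hG, Set.mem_ofPred_eq, Set.mem_compl_iff, IsRoot, hDe]
    rw [this]
    exact hfin.infinite_compl
  set PX : ZMod 5 × ZMod 5 → K[X] := fun w =>
    tX w K[X] (C ζ) (lineU (C u₀) (C v₀) X) (lineV (C u₀) (C v₀) X) with hPX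
  set PY : ZMod 5 × ZMod 5 → K[X] := fun w =>
    tY w K[X] (C ζ) (lineU (C u₀) (C v₀) X) (lineV (C u₀) (C v₀) X) with hPY
  have hPXe : ∀ w t, (PX w).eval t = tX w K ζ (lineU u₀ v₀ t) (lineV u₀ v₀ t) := by
    intro w t
    have := mapX w K[X] K (evalRingHom t) (C ζ) (lineU (C u₀) (C v₀) X) (lineV (C u₀) (C v₀) X)
    simpa only [map_lineU, map_lineV, coe_evalRingHom, eval_C, eval_X] using this
  have hPYe : ∀ w t, (PY w).eval t = tY w K ζ (lineU u₀ v₀ t) (lineV u₀ v₀ t) := by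
    intro w t
    have := mapY w K[X] K (evalRingHom t) (C ζ) (lineU (C u₀) (C v₀) X) (lineV (C u₀) (C v₀) X)
    simpa only [map_lineU, map_lineV, coe_evalRingHom, eval_C, eval_X] using this
  have hQXe : ∀ w t, ((PX w).map φ).eval t =
      tX w K (φ ζ) (lineU (φ u₀) (φ v₀) t) (lineV (φ u₀) (φ v₀) t) := by
    intro w t
    have h1 := mapX w K[X] K[X] (mapRingHom φ) (C ζ) (lineU (C u₀) (C v₀) X)
      (lineV (C u₀) (C v₀) X)
    have h2 := mapX w K[X] K (evalRingHom t) (C (φ ζ)) (lineU (C (φ u₀)) (C (φ v₀)) X)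
      (lineV (C (φ u₀)) (C (φ v₀)) X)
    simp only [map_lineU, map_lineV, coe_mapRingHom, map_C, map_X] at h1
    simp only [map_lineU, map_lineV, coe_evalRingHom, eval_C, eval_X] at h2
    rw [h1, h2]
  have hQYe : ∀ w t, ((PY w).map φ).eval t =
      tY w K (φ ζ) (lineU (φ u₀) (φ v₀) t) (lineV (φ u₀) (φ v₀) t) := by
    intro w t
    have h1 := mapY w K[X] K[X] (mapRingHom φ) (C ζ) (lineU (C u₀) (C v₀) X)
      (lineV (C u₀) (C v₀) X)
    have h2 := mapY w K[X] K (evalRingHom t) (C (φ ζ)) (lineU (C (φ u₀)) (C (φ v₀)) X)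
      (lineV (C (φ u₀)) (C (φ v₀)) X)
    simp only [map_lineU, map_lineV, coe_mapRingHom, map_C, map_X] at h1
    simp only [map_lineU, map_lineV, coe_evalRingHom, eval_C, eval_X] at h2
    rw [h1, h2]
  have hP : ∀ t ∈ G, HasL5 (E t) (fun w => (PX w).eval t) (fun w => (PY w).eval t) := by
    intro t ht
    have h := lam ζ (lineU u₀ v₀ t) (lineV u₀ v₀ t) hζ (by
      rw [hlf, hu, hv]; exact mul_ne_zero hf₀ ht)
    rw [hlH, hlT, hu, hv] at h
    simpa only [hPXe, hPYe] using h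
  have hQ : ∀ t ∈ G, HasL5 (E t) (fun w => ((PX w).map φ).eval t)
      (fun w => ((PY w).map φ).eval t) := by
    intro t ht
    have h := lam (φ ζ) (lineU (φ u₀) (φ v₀) t) (lineV (φ u₀) (φ v₀) t) hζ' (by
      rw [hlf, hu', hv']; exact mul_ne_zero hf₀' ht)
    rw [hlH, hlT, hu', hv'] at h
    simpa only [hQXe, hQYe] using h
  obtain ⟨M, hM0, hM⟩ := rigid h15 E G hGinf PX PY (fun w => (PX w).map φ)
    (fun w => (PY w).map φ) hP hQ
  -- Frobenius on coordinates at a rational parameter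
  have hfrob : ∀ t : K, φ t = t → ∀ w, w ≠ 0 → M w ≠ 0 ∧
      F ((PX w).eval t) = (PX (M w)).eval t ∧ F ((PY w).eval t) = (PY (M w)).eval t := by
    intro t ht w hw
    obtain ⟨h0, h1, h2⟩ := hM w hw
    refine ⟨h0, ?_, ?_⟩
    · have := eval_map_apply (p := PX w) φ t
      rw [ht, h1] at this
      exact this.symm
    · have := eval_map_apply (p := PY w) φ t
      rw [ht, h2] at this
      exact this.symm
  -- the two parameters
  have h0G : (0 : K) ∈ G := by
    simp only [hG, Set.mem_ofPred_eq, famD_zero]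
    exact one_ne_zero
  set s' : K := algebraMap (ZMod ℓ) K s with hs'
  have hsG : s' ∈ G := by
    intro h0
    apply hΔ'
    apply hinj
    rw [map_sub, map_pow, map_pow, map_famA, map_famB, _root_.map_zero, ← hH, ← hT, ← hs', ← hu, ← hv,
      ← hlH, ← hlT, klein_relation, hlf, hu, hv, h0]
    ring
  have hE0 : ((shortW c4 c6).toAffine⁄K) = E 0 := by
    rw [shortW_baseChange, hE]
    simp only [famA_zero, famB_zero, hT, hH, map_neg, neg_neg]
  have hEs : ((shortW (famA c4 (-c6) s) (-famB c4 (-c6) s)).toAffine⁄K) = E s' := by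
    rw [shortW_baseChange, hE]
    simp only [map_neg, map_famA, map_famB, hT, hH, hs']
  have hP0 := hP 0 h0G
  have hPs := hP s' hsG
  rw [← hE0] at hP0
  rw [← hEs] at hPs
  obtain ⟨Λ, hΛ, hc⟩ := hP0
  obtain ⟨Λ', hΛ', hc'⟩ := hPs
  refine ⟨Λ, Λ', M, hΛ, hΛ', ?_, ?_⟩
  · exact frob_of_coords _ K _ _ M hM0 (hfrob 0 (_root_.map_zero φ)) Λ hc
  · exact frob_of_coords _ K _ _ M hM0 (hfrob s' (hφc s)) Λ' hc'

end Fermat.Agent.S52.B
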