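import Fermat.Agent.S51.Card

/-!
# S52, Node B2: the 5-torsion of a Weierstrass curve over a field with `15 ≠ 0`

`{P | 5 • P = 0}` has at most `33` elements; hence an injective additive map
`ZMod 5 × ZMod 5 →+ V.Point` hits every 5-torsion point.
-/

set_option autoImplicit false

open Polynomial

namespace Fermat.Agent.S52.B

variable {F : Type*} [Field F] [DecidableEq F]

omit [DecidableEq F] in
theorem f16_natDegree (h15 : (15 : F) ≠ 0) (V : WeierstrassCurve.Affine F) :
    (Fermat.Agent.S51.f16 V).natDegree = 16 := by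
  unfold Fermat.Agent.S51.f16 Fermat.Agent.S51.nPoly Fermat.Agent.S51.mPoly
  compute_degree!

theorem five_torsion_finite (h15 : (15 : F) ≠ 0) (V : WeierstrassCurve.Affine F) :
    {P : V.Point | 5 • P = 0}.Finite ∧ {P : V.Point | 5 • P = 0}.ncard ≤ 33 := by
  have hdeg := f16_natDegree h15 V
  have hne : Fermat.Agent.S51.f16 V ≠ 0 := by
    intro h; rw [h] at hdeg; simp at hdeg
  have h := Fermat.Agent.S51.finite_of_roots V {P : V.Point | 5 • P = 0}
    (Fermat.Agent.S51.f16 V) hne (by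
    intro x y h hP
    obtain ⟨x₂, y₂, h₂, -, -, hM1, -, h12, h21⟩ := Fermat.Agent.S51.five_torsion h hP
    have hx₂ : x₂ = Fermat.Agent.S51.dupN V.b₄ V.b₆ V.b₈ x /
        Fermat.Agent.S51.dupM V.b₂ V.b₄ V.b₆ x := by
      rw [h12]; field_simp
    have hN : (Fermat.Agent.S51.nPoly V).eval x = Fermat.Agent.S51.dupN V.b₄ V.b₆ V.b₈ x := by
      simp only [Fermat.Agent.S51.nPoly, Fermat.Agent.S51.dupN, eval_sub, eval_mul, eval_C,
        eval_pow, eval_X]
    have hM : (Fermat.Agent.S51.mPoly V).eval x = Fermat.Agent.S51.dupM V.b₂ V.b₄ V.b₆ x := by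
      simp only [Fermat.Agent.S51.mPoly, Fermat.Agent.S51.dupM, eval_add, eval_mul, eval_C,
        eval_pow, eval_X]
    simp only [Fermat.Agent.S51.f16, eval_sub, eval_add, eval_mul, eval_C, eval_pow, eval_X, hN, hM]
    generalize Fermat.Agent.S51.dupN V.b₄ V.b₆ V.b₈ x = n at *
    generalize Fermat.Agent.S51.dupM V.b₂ V.b₄ V.b₆ x = m at *
    subst hx₂
    simp only [Fermat.Agent.S51.dupN, Fermat.Agent.S51.dupM] at h21
    field_simp at h21
    linear_combination h21)
  rw [hdeg] at h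
  exact h

/-- the subgroup of 5-torsion points -/
def tors5 (V : WeierstrassCurve.Affine F) : AddSubgroup V.Point where
  carrier := {P | 5 • P = 0}
  zero_mem' := by simp
  add_mem' := by
    intro a b ha hb
    simp only [Set.mem_ofPred_eq] at ha hb ⊢
    rw [smul_add, ha, hb, add_zero]
  neg_mem' := by
    intro a ha
    simp only [Set.mem_ofPred_eq] at ha ⊢
    rw [smul_neg, ha, neg_zero]

theorem exists_of_five_nsmul_eq_zero (h15 : (15 : F) ≠ 0) (V : WeierstrassCurve.Affine F)
    (Λ : ZMod 5 × ZMod 5 →+ V.Point) (hΛ : Function.Injective Λ) (P : V.Point)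
    (hP : 5 • P = 0) : ∃ w, Λ w = P := by
  obtain ⟨hfin, hcard⟩ := five_torsion_finite h15 V
  have hfinT : Finite (tors5 V) := hfin
  have hcT : Nat.card (tors5 V) ≤ 33 := hcard
  have hle : Λ.range ≤ tors5 V := by
    rintro _ ⟨w, rfl⟩
    show 5 • Λ w = 0
    rw [← map_nsmul]
    have : (5 : ℕ) • w = 0 := by
      ext <;> simp <;> exact (by decide : ∀ x : ZMod 5, 5 * x = 0) _
    rw [this, map_zero]
  have hcR : Nat.card Λ.range = 25 := by
    have e : Nat.card Λ.range = Nat.card (ZMod 5 × ZMod 5) :=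
      (Nat.card_congr (Equiv.ofInjective Λ hΛ)).symm
    rw [e, Nat.card_prod, Nat.card_zmod]
  have hdvd : Nat.card Λ.range ∣ Nat.card (tors5 V) := AddSubgroup.card_dvd_of_le hle
  rw [hcR] at hdvd
  have hpos : 0 < Nat.card (tors5 V) := Nat.card_pos
  have hT25 : Nat.card (tors5 V) = 25 := by
    obtain ⟨c, hc⟩ := hdvd
    omega
  have heq : Λ.range = tors5 V :=
    AddSubgroup.eq_of_le_of_card_ge hle (by rw [hcR, hT25])
  have hPm : P ∈ tors5 V := hP
  rw [← heq] at hPm
  exact hPm

end Fermat.Agent.S52.B
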