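import Fermat.Agent.S52.B.Card5

/-!
# S52, Node B4: rigidity of level 5 structures in a polynomial family (pigeonhole form)

If two families of full level 5 structures on the same family of curves `E s` have coordinates
which are polynomials in `s`, then they differ by a constant relabelling of the index set.
-/

set_option autoImplicit false

open Polynomial WeierstrassCurve WeierstrassCurve.Affine

namespace Fermat.Agent.S52.B

/-- `E` carries a full level 5 structure whose nonzero points have the prescribed coordinates. -/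
def HasL5 {K : Type*} [Field K] [DecidableEq K] (E : WeierstrassCurve.Affine K)
    (x y : ZMod 5 × ZMod 5 → K) : Prop :=
  ∃ Λ : ZMod 5 × ZMod 5 →+ E.Point, Function.Injective Λ ∧
    ∀ w, w ≠ 0 → ∃ h, Λ w = Point.some (x w) (y w) h

theorem poly_pigeonhole {K : Type*} [Field K] {ι : Type*} [Finite ι] (G : Set K)
    (hG : G.Infinite) (q₁ q₂ : K[X]) (p₁ p₂ : ι → K[X])
    (h : ∀ s ∈ G, ∃ i, q₁.eval s = (p₁ i).eval s ∧ q₂.eval s = (p₂ i).eval s) :
    ∃ i, q₁ = p₁ i ∧ q₂ = p₂ i := by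
  by_contra hcon
  push Not at hcon
  apply hG
  have hsub : G ⊆ ⋃ i, {s | q₁.eval s = (p₁ i).eval s ∧ q₂.eval s = (p₂ i).eval s} := by
    intro s hs
    obtain ⟨i, hi⟩ := h s hs
    exact Set.mem_iUnion.2 ⟨i, hi⟩
  refine (Set.finite_iUnion fun i => ?_).subset hsub
  by_contra hinf
  have hinf' : {s | q₁.eval s = (p₁ i).eval s ∧ q₂.eval s = (p₂ i).eval s}.Infinite := hinf
  have h1 : q₁ = p₁ i := eq_of_infinite_eval_eq _ _ (hinf'.mono fun s hs => hs.1)
  have h2 : q₂ = p₂ i := eq_of_infinite_eval_eq _ _ (hinf'.mono fun s hs => hs.2)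
  exact hcon i h1 h2

theorem five_nsmul_index (w : ZMod 5 × ZMod 5) : (5 : ℕ) • w = 0 := by
  ext <;> simp <;> exact (by decide : ∀ x : ZMod 5, 5 * x = 0) _

/-- comparison of two level structures on one curve -/
theorem HasL5.compare {K : Type*} [Field K] [DecidableEq K] (h15 : (15 : K) ≠ 0)
    {E : WeierstrassCurve.Affine K} {x y x' y' : ZMod 5 × ZMod 5 → K}
    (h : HasL5 E x y) (h' : HasL5 E x' y') (w : ZMod 5 × ZMod 5) (hw : w ≠ 0) :
    ∃ w' : {w' : ZMod 5 × ZMod 5 // w' ≠ 0}, x' w = x w'.1 ∧ y' w = y w'.1 := by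
  obtain ⟨Λ, hΛ, hc⟩ := h
  obtain ⟨Λ', -, hc'⟩ := h'
  have h5 : 5 • Λ' w = 0 := by rw [← map_nsmul, five_nsmul_index, map_zero]
  obtain ⟨w', hw'⟩ := exists_of_five_nsmul_eq_zero h15 E Λ hΛ (Λ' w) h5
  obtain ⟨hns', e'⟩ := hc' w hw
  have hw'0 : w' ≠ 0 := by
    rintro rfl
    rw [map_zero, e'] at hw'
    exact Point.some_ne_zero _ hw'.symm
  obtain ⟨hns, e⟩ := hc w' hw'0
  rw [e, e', Point.some.injEq] at hw'
  exact ⟨⟨w', hw'0⟩, hw'.1.symm, hw'.2.symm⟩

/-- **Rigidity.** -/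
theorem rigid {K : Type*} [Field K] [DecidableEq K] (h15 : (15 : K) ≠ 0)
    (E : K → WeierstrassCurve.Affine K) (G : Set K) (hG : G.Infinite)
    (PX PY QX QY : ZMod 5 × ZMod 5 → K[X])
    (hP : ∀ s ∈ G, HasL5 (E s) (fun w => (PX w).eval s) (fun w => (PY w).eval s))
    (hQ : ∀ s ∈ G, HasL5 (E s) (fun w => (QX w).eval s) (fun w => (QY w).eval s)) :
    ∃ M : ZMod 5 × ZMod 5 → ZMod 5 × ZMod 5, M 0 = 0 ∧
      ∀ w, w ≠ 0 → M w ≠ 0 ∧ QX w = PX (M w) ∧ QY w = PY (M w) := by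
  classical
  have key : ∀ w : ZMod 5 × ZMod 5, w ≠ 0 →
      ∃ w' : {w' : ZMod 5 × ZMod 5 // w' ≠ 0}, QX w = PX w'.1 ∧ QY w = PY w'.1 := by
    intro w hw
    exact poly_pigeonhole (ι := {w' : ZMod 5 × ZMod 5 // w' ≠ 0}) G hG (QX w) (QY w)
      (fun w' => PX w'.1) (fun w' => PY w'.1)
      (fun s hs => (hP s hs).compare h15 (hQ s hs) w hw)
  choose M hM using key
  refine ⟨fun w => if hw : w = 0 then 0 else (M w hw).1, by simp, fun w hw => ?_⟩
  simp only [hw, dite_false]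
  exact ⟨(M w hw).2, hM w hw⟩

end Fermat.Agent.S52.B
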