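import Fermat.Agent.S52.B.Sections
import Fermat.Agent.S52.B.Rigid

/-!
# S52, Node B1: the full level 5 structure with explicit polynomial coordinates
-/

set_option autoImplicit false

open WeierstrassCurve WeierstrassCurve.Affine

namespace Fermat.Agent.S52.B

section defs

variable {R : Type*} [CommRing R]

/-- `x`-coordinate of `i • R + j • Q`. -/
def tXn (i j : ℕ) (z c u v : R) : R :=
  match i with
  | 0 => (match j with
      | 1 => c * xq z u v
      | 2 => c * xq z v (-u)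
      | 3 => c * xq z v (-u)
      | _ => c * xq z u v)
  | 1 => X1 (z ^ j * u) v
  | 2 => X1 v (-(z ^ (3 * j) * u))
  | 3 => X1 v (-(z ^ (2 * j) * u))
  | _ => X1 (z ^ (4 * j) * u) v

/-- `y`-coordinate of `i • R + j • Q`. -/
def tYn (i j : ℕ) (z c u v : R) : R :=
  match i with
  | 0 => (match j with
      | 1 => c * yq z u v
      | 2 => -(c * yq z v (-u))
      | 3 => c * yq z v (-u)
      | _ => -(c * yq z u v))
  | 1 => Y1 (z ^ j * u) v
  | 2 => Y1 v (-(z ^ (3 * j) * u))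
  | 3 => -Y1 v (-(z ^ (2 * j) * u))
  | _ => -Y1 (z ^ (4 * j) * u) v

variable {S : Type*} [CommRing S] (f : R →+* S)

theorem map_X1 (u v : R) : f (X1 u v) = X1 (f u) (f v) := by
  simp only [X1, map_add, map_sub, map_mul, map_pow, map_ofNat]

theorem map_Y1 (u v : R) : f (Y1 u v) = Y1 (f u) (f v) := by
  simp only [Y1, map_add, map_sub, map_mul, map_pow, map_ofNat]

theorem map_xq (z u v : R) : f (xq z u v) = xq (f z) (f u) (f v) := by
  simp only [xq, map_add, map_sub, map_mul, map_pow, map_ofNat, map_neg]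

theorem map_yq (z u v : R) : f (yq z u v) = yq (f z) (f u) (f v) := by
  simp only [yq, map_add, map_sub, map_mul, map_pow, map_ofNat, map_neg]

theorem map_tXn (i j : ℕ) (z c u v : R) :
    f (tXn i j z c u v) = tXn i j (f z) (f c) (f u) (f v) := by
  unfold tXn
  split
  · split <;> simp only [map_mul, map_xq, map_neg]
  all_goals simp only [map_X1, map_mul, map_pow, map_neg]

theorem map_tYn (i j : ℕ) (z c u v : R) :
    f (tYn i j z c u v) = tYn i j (f z) (f c) (f u) (f v) := by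
  unfold tYn
  split
  · split <;> simp only [map_mul, map_yq, map_neg]
  all_goals simp only [map_Y1, map_mul, map_pow, map_neg]

end defs

section field

variable {K : Type*} [Field K] [DecidableEq K] {H T z c u v : K}

theorem ptR_add_nsmul (h30 : (30 : K) ≠ 0) (hz : z ^ 4 + z ^ 3 + z ^ 2 + z + 1 = 0)
    (hc : 5 * c = 1) (hp : Par H T u v) (n : ℕ) :
    ptR H T u v + n • ptQ H T z c u v = ptR H T (z ^ n * u) v := by
  have hz5 := pow_five_eq_one z hz
  induction n with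
  | zero => simp
  | succ n ih =>
    have hw : (z ^ n) ^ 5 = 1 := by rw [← pow_mul, mul_comm, pow_mul, hz5, one_pow]
    rw [succ_nsmul, ← add_assoc, ih, ← ptQ_rot z c hw u v,
      ptR_add_ptQ h30 hz hc (hp.rot hw), ← mul_assoc, ← pow_succ']

theorem five_nsmul_ptR (h6 : (6 : K) ≠ 0) (hp : Par H T u v) : 5 • ptR H T u v = 0 := by
  have h1 := ptR_dbl h6 hp
  have h2 := ptR_dbl h6 hp.D
  rw [ptR_neg h6 hp] at h2
  rw [← h1] at h2
  have : 5 • ptR H T u v = (ptR H T u v + ptR H T u v + (ptR H T u v + ptR H T u v))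
      + ptR H T u v := by
    simp only [show (5 : ℕ) = 1 + 1 + (1 + 1) + 1 from rfl, add_nsmul, one_nsmul]
  rw [this, h2, neg_add_cancel]

theorem five_nsmul_ptQ (h30 : (30 : K) ≠ 0) (hz : z ^ 4 + z ^ 3 + z ^ 2 + z + 1 = 0)
    (hc : 5 * c = 1) (hp : Par H T u v) : 5 • ptQ H T z c u v = 0 := by
  have h1 := ptQ_dbl h30 hz hc hp
  have h2 := ptQ_dbl h30 hz hc hp.D
  rw [ptQ_neg h30 hz hc hp, neg_neg] at h2
  have h3 : ptQ H T z c v (-u) = -(ptQ H T z c u v + ptQ H T z c u v) := by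
    rw [h1, neg_neg]
  rw [h3] at h2
  have : 5 • ptQ H T z c u v = -(-(ptQ H T z c u v + ptQ H T z c u v)
      + -(ptQ H T z c u v + ptQ H T z c u v)) + ptQ H T z c u v := by
    simp only [show (5 : ℕ) = 1 + 1 + (1 + 1) + 1 from rfl, add_nsmul, one_nsmul]
    abel
  rw [this, h2, neg_add_cancel]

theorem coord (h30 : (30 : K) ≠ 0) (hz : z ^ 4 + z ^ 3 + z ^ 2 + z + 1 = 0)
    (hc : 5 * c = 1) (hp : Par H T u v) (i j : ℕ) (hi : i < 5) (hj : j < 5)
    (hij : ¬ (i = 0 ∧ j = 0)) :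
    ∃ h, i • ptR H T u v + j • ptQ H T z c u v =
      Point.some (tXn i j z c u v) (tYn i j z c u v) h := by
  have h6 : (6 : K) ≠ 0 := fun h => h30 (by linear_combination 5 * h)
  have hz5 := pow_five_eq_one z hz
  have hw : ∀ n : ℕ, (z ^ n) ^ 5 = 1 := fun n => by
    rw [← pow_mul, mul_comm, pow_mul, hz5, one_pow]
  have hR5 := five_nsmul_ptR h6 hp
  have hQ5 := five_nsmul_ptQ h30 hz hc hp
  have hadd := ptR_add_nsmul h30 hz hc hp
  set P := ptR H T u v with hP
  set Q := ptQ H T z c u v with hQ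
  have hQ2 : Q + Q = -ptQ H T z c v (-u) := ptQ_dbl h30 hz hc hp
  interval_cases i
  · -- multiples of Q
    rw [zero_nsmul, zero_add]
    interval_cases j
    · exact absurd ⟨rfl, rfl⟩ hij
    · refine ⟨nonsing_Q h30 hz hc hp, ?_⟩
      rw [one_nsmul, hQ, ptQ, mk_of (nonsing_Q h30 hz hc hp)]
      rfl
    · refine ⟨nonsing_Q_neg h30 hz hc hp.D, ?_⟩
      rw [two_nsmul, hQ2, ptQ, mk_of (nonsing_Q h30 hz hc hp.D),
        neg_some_short _ _ _ (nonsing_Q_neg h30 hz hc hp.D)]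
      rfl
    · refine ⟨nonsing_Q h30 hz hc hp.D, ?_⟩
      have : 3 • Q = -(Q + Q) := by
        rw [eq_neg_iff_add_eq_zero, ← hQ5]
        simp only [show (5 : ℕ) = 3 + (1 + 1) from rfl, add_nsmul, one_nsmul]
      rw [this, hQ2, neg_neg, ptQ, mk_of (nonsing_Q h30 hz hc hp.D)]
      rfl
    · refine ⟨nonsing_Q_neg h30 hz hc hp, ?_⟩
      have : 4 • Q = -Q := by
        rw [eq_neg_iff_add_eq_zero, ← hQ5]
        simp only [show (5 : ℕ) = 4 + 1 from rfl, add_nsmul, one_nsmul]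
      rw [this, hQ, ptQ, mk_of (nonsing_Q h30 hz hc hp),
        neg_some_short _ _ _ (nonsing_Q_neg h30 hz hc hp)]
      rfl
  · refine ⟨nonsing_R h6 (hp.rot (hw j)), ?_⟩
    rw [one_nsmul, hadd j, ptR, mk_of (nonsing_R h6 (hp.rot (hw j)))]
    rfl
  · refine ⟨nonsing_R h6 (hp.rot (hw (3 * j))).D, ?_⟩
    have : 2 • P + j • Q = (P + (3 * j) • Q) + (P + (3 * j) • Q) := by
      have e : (P + (3 * j) • Q) + (P + (3 * j) • Q) = 2 • P + j • Q + j • (5 • Q) := by
        module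
      rw [e, hQ5, smul_zero, add_zero]
    rw [this, hadd (3 * j), ptR_dbl h6 (hp.rot (hw (3 * j))), ptR,
      mk_of (nonsing_R h6 (hp.rot (hw (3 * j))).D)]
    rfl
  · refine ⟨nonsing_R_neg h6 (hp.rot (hw (2 * j))).D, ?_⟩
    have : 3 • P + j • Q = -((P + (2 * j) • Q) + (P + (2 * j) • Q)) := by
      rw [eq_neg_iff_add_eq_zero]
      have e : 3 • P + j • Q + ((P + (2 * j) • Q) + (P + (2 * j) • Q)) = 5 • P + j • (5 • Q) := by
        module
      rw [e, hQ5, hR5, smul_zero, add_zero]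
    rw [this, hadd (2 * j), ptR_dbl h6 (hp.rot (hw (2 * j))), ptR,
      mk_of (nonsing_R h6 (hp.rot (hw (2 * j))).D),
      neg_some_short _ _ _ (nonsing_R_neg h6 (hp.rot (hw (2 * j))).D)]
    rfl
  · refine ⟨nonsing_R_neg h6 (hp.rot (hw (4 * j))), ?_⟩
    have : 4 • P + j • Q = -(P + (4 * j) • Q) := by
      rw [eq_neg_iff_add_eq_zero]
      have e : 4 • P + j • Q + (P + (4 * j) • Q) = 5 • P + j • (5 • Q) := by
        module
      rw [e, hQ5, hR5, smul_zero, add_zero]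
    rw [this, hadd (4 * j), ptR, mk_of (nonsing_R h6 (hp.rot (hw (4 * j)))),
      neg_some_short _ _ _ (nonsing_R_neg h6 (hp.rot (hw (4 * j))))]
    rfl

/-- an additive map out of `ZMod 5 × ZMod 5` from two points of order dividing 5 -/
theorem exists_hom {A : Type*} [AddCommGroup A] (P Q : A) (hP : 5 • P = 0) (hQ : 5 • Q = 0) :
    ∃ Λ : ZMod 5 × ZMod 5 →+ A, ∀ w, Λ w = w.1.val • P + w.2.val • Q := by
  have hP' : (zmultiplesHom A P) ((5 : ℕ) : ℤ) = 0 := by
    simp only [zmultiplesHom_apply, natCast_zsmul]; exact hP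
  have hQ' : (zmultiplesHom A Q) ((5 : ℕ) : ℤ) = 0 := by
    simp only [zmultiplesHom_apply, natCast_zsmul]; exact hQ
  refine ⟨AddMonoidHom.coprod (ZMod.lift 5 ⟨zmultiplesHom A P, hP'⟩)
    (ZMod.lift 5 ⟨zmultiplesHom A Q, hQ'⟩), fun w => ?_⟩
  have key : ∀ (X : A) (hX : (zmultiplesHom A X) ((5 : ℕ) : ℤ) = 0) (a : ZMod 5),
      ZMod.lift 5 ⟨zmultiplesHom A X, hX⟩ a = a.val • X := by
    intro X hX a
    have ha : a = ((a.val : ℤ) : ZMod 5) := by simp
    conv_lhs => rw [ha]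
    rw [ZMod.lift_coe]
    show (zmultiplesHom A X) ((a.val : ℕ) : ℤ) = _
    rw [zmultiplesHom_apply, natCast_zsmul]
  rw [AddMonoidHom.coprod_apply, key, key]

/-- **B1.** -/
theorem hasL5 (h30 : (30 : K) ≠ 0) (hz : z ^ 4 + z ^ 3 + z ^ 2 + z + 1 = 0)
    (hc : 5 * c = 1) (hf : kf u v ≠ 0) :
    HasL5 (shortW (kH u v) (-kT u v)).toAffine
      (fun w => tXn w.1.val w.2.val z c u v) (fun w => tYn w.1.val w.2.val z c u v) := by
  have h6 : (6 : K) ≠ 0 := fun h => h30 (by linear_combination 5 * h)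
  have hp : Par (kH u v) (kT u v) u v := ⟨rfl, rfl, hf⟩
  obtain ⟨Λ, hΛ⟩ := exists_hom (ptR (kH u v) (kT u v) u v) (ptQ (kH u v) (kT u v) z c u v)
    (five_nsmul_ptR h6 hp) (five_nsmul_ptQ h30 hz hc hp)
  have hcoord : ∀ w : ZMod 5 × ZMod 5, w ≠ 0 → ∃ h, Λ w =
      Point.some (tXn w.1.val w.2.val z c u v) (tYn w.1.val w.2.val z c u v) h := by
    intro w hw
    rw [hΛ]
    refine coord h30 hz hc hp _ _ (ZMod.val_lt _) (ZMod.val_lt _) ?_
    rintro ⟨h1, h2⟩
    apply hw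
    ext
    · exact (ZMod.val_eq_zero _).1 h1
    · exact (ZMod.val_eq_zero _).1 h2
  refine ⟨Λ, ?_, hcoord⟩
  rw [injective_iff_map_eq_zero]
  intro w hw
  by_contra hne
  obtain ⟨h, e⟩ := hcoord w hne
  rw [e] at hw
  exact Point.some_ne_zero _ hw

end field

end Fermat.Agent.S52.B
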