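import Fermat.Agent.S52.Interface

/-!
# S52, Node B1: the group law on `y² = x³ - 27 c₄ x - 54 c₆` in certificate form
-/

set_option autoImplicit false

open WeierstrassCurve WeierstrassCurve.Affine

namespace Fermat.Agent.S52.B

variable {K : Type*} [Field K]

theorem shortW_equation (c4 c6 x y : K) :
    (shortW c4 c6).toAffine.Equation x y ↔ y ^ 2 = x ^ 3 - 27 * c4 * x - 54 * c6 := by
  rw [Affine.equation_iff]
  simp only [shortW]
  constructor <;> intro h <;> linear_combination h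

theorem shortW_Δ (c4 c6 : K) : (shortW c4 c6).Δ = 6 ^ 6 * 27 * (c4 ^ 3 - c6 ^ 2) := by
  simp only [shortW, WeierstrassCurve.Δ, b₂, b₄, b₆, b₈]
  ring

theorem shortW_nonsingular (h6 : (6 : K) ≠ 0) (c4 c6 x y : K) (hΔ : c4 ^ 3 - c6 ^ 2 ≠ 0)
    (h : y ^ 2 = x ^ 3 - 27 * c4 * x - 54 * c6) : (shortW c4 c6).toAffine.Nonsingular x y := by
  have h3 : (3 : K) ≠ 0 := fun h => h6 (by linear_combination 2 * h)
  have h27 : (27 : K) ≠ 0 := by
    have : (27 : K) = 3 ^ 3 := by norm_num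
    rw [this]; exact pow_ne_zero 3 h3
  have hD : (shortW c4 c6).toAffine.Δ ≠ 0 := by
    rw [show (shortW c4 c6).toAffine.Δ = (shortW c4 c6).Δ from rfl, shortW_Δ]
    exact mul_ne_zero (mul_ne_zero (pow_ne_zero 6 h6) h27) hΔ
  exact (Affine.equation_iff_nonsingular_of_Δ_ne_zero hD).1 ((shortW_equation c4 c6 x y).2 h)

variable [DecidableEq K]

theorem add_eq_of_chord (c4 c6 : K) {x₁ y₁ x₂ y₂ x₃ y₃ : K}
    (h₁ : (shortW c4 c6).toAffine.Nonsingular x₁ y₁)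
    (h₂ : (shortW c4 c6).toAffine.Nonsingular x₂ y₂)
    (h₃ : (shortW c4 c6).toAffine.Nonsingular x₃ y₃) (hx : x₁ ≠ x₂)
    (e1 : (y₂ - y₁) ^ 2 = (x₁ + x₂ + x₃) * (x₂ - x₁) ^ 2)
    (e2 : (-y₃ - y₁) * (x₂ - x₁) = (y₂ - y₁) * (x₃ - x₁)) :
    Point.some x₁ y₁ h₁ + Point.some x₂ y₂ h₂ = Point.some x₃ y₃ h₃ := by
  have hd : x₁ - x₂ ≠ 0 := sub_ne_zero.2 hx
  rw [Point.add_of_X_ne hx, Point.some.injEq]
  rw [slope_of_X_ne hx]
  obtain ⟨l, hl⟩ : ∃ l, l = (y₁ - y₂) / (x₁ - x₂) := ⟨_, rfl⟩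
  rw [← hl]
  have hl' : l * (x₁ - x₂) = y₁ - y₂ := by rw [hl, div_mul_cancel₀ _ hd]
  have hX : (shortW c4 c6).toAffine.addX x₁ x₂ l = x₃ := by
    simp only [addX, shortW]
    have : (x₁ - x₂) ^ 2 * (l ^ 2 + 0 * l - 0 - x₁ - x₂ - x₃) = 0 := by
      linear_combination (l * (x₁ - x₂) + (y₁ - y₂)) * hl' + e1
    have := (mul_eq_zero.1 this).resolve_left (pow_ne_zero 2 hd)
    linear_combination this
  refine ⟨hX, ?_⟩
  simp only [addY, negAddY, hX]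
  simp only [negY, shortW]
  have : (x₁ - x₂) * (-(l * (x₃ - x₁) + y₁) - 0 * x₃ - 0 - y₃) = 0 := by
    linear_combination (-(x₃ - x₁)) * hl' - e2
  have := (mul_eq_zero.1 this).resolve_left hd
  linear_combination this

theorem add_self_eq_of_tangent (c4 c6 : K) {x₁ y₁ x₃ y₃ : K}
    (h₁ : (shortW c4 c6).toAffine.Nonsingular x₁ y₁)
    (h₃ : (shortW c4 c6).toAffine.Nonsingular x₃ y₃) (hy : 2 * y₁ ≠ 0)
    (e1 : (3 * x₁ ^ 2 - 27 * c4) ^ 2 = (2 * x₁ + x₃) * (2 * y₁) ^ 2)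
    (e2 : (-y₃ - y₁) * (2 * y₁) = (3 * x₁ ^ 2 - 27 * c4) * (x₃ - x₁)) :
    Point.some x₁ y₁ h₁ + Point.some x₁ y₁ h₁ = Point.some x₃ y₃ h₃ := by
  have hne : y₁ ≠ (shortW c4 c6).toAffine.negY x₁ y₁ := by
    simp only [negY, shortW]
    intro h
    apply hy
    linear_combination h
  have hsl : (shortW c4 c6).toAffine.slope x₁ x₁ y₁ y₁ = (3 * x₁ ^ 2 - 27 * c4) / (2 * y₁) := by
    rw [slope_of_Y_ne rfl hne]
    simp only [negY, shortW]
    congr 1 <;> ring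
  rw [Point.add_self_of_Y_ne hne, Point.some.injEq, hsl]
  obtain ⟨l, hl⟩ : ∃ l, l = (3 * x₁ ^ 2 - 27 * c4) / (2 * y₁) := ⟨_, rfl⟩
  rw [← hl]
  have hl' : l * (2 * y₁) = 3 * x₁ ^ 2 - 27 * c4 := by rw [hl, div_mul_cancel₀ _ hy]
  have hX : (shortW c4 c6).toAffine.addX x₁ x₁ l = x₃ := by
    simp only [addX, shortW]
    have : (2 * y₁) ^ 2 * (l ^ 2 + 0 * l - 0 - x₁ - x₁ - x₃) = 0 := by
      linear_combination (l * (2 * y₁) + (3 * x₁ ^ 2 - 27 * c4)) * hl' + e1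
    have := (mul_eq_zero.1 this).resolve_left (pow_ne_zero 2 hy)
    linear_combination this
  refine ⟨hX, ?_⟩
  simp only [addY, negAddY, hX]
  simp only [negY, shortW]
  have : (2 * y₁) * (-(l * (x₃ - x₁) + y₁) - 0 * x₃ - 0 - y₃) = 0 := by
    linear_combination (-(x₃ - x₁)) * hl' + e2
  have := (mul_eq_zero.1 this).resolve_left hy
  linear_combination this

theorem neg_some_short (c4 c6 : K) {x y : K} (h : (shortW c4 c6).toAffine.Nonsingular x y)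
    (h' : (shortW c4 c6).toAffine.Nonsingular x (-y)) :
    -Point.some x y h = Point.some x (-y) h' := by
  rw [Point.neg_some, Point.some.injEq]
  refine ⟨rfl, ?_⟩
  simp only [negY, shortW]
  ring

end Fermat.Agent.S52.B
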