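import Fermat.Agent.S52.B.TableIds
import Fermat.Agent.S52.B.ShortLaw

/-!
# S52, Node B1: the sections `R`, `Q` as points and their relations in the group
-/

set_option autoImplicit false

open WeierstrassCurve WeierstrassCurve.Affine

namespace Fermat.Agent.S52.B

section ring

variable {R : Type*} [CommRing R]

theorem X1_neg (u v : R) : X1 (-u) (-v) = X1 u v := by unfold X1; ring
theorem Y1_neg (u v : R) : Y1 (-u) (-v) = -Y1 u v := by unfold Y1; ring
theorem xq_neg (z u v : R) : xq z (-u) (-v) = xq z u v := by unfold xq; ring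
theorem yq_neg (z u v : R) : yq z (-u) (-v) = -yq z u v := by unfold yq; ring

theorem xq_rot (z w u v : R) (hw : w ^ 5 = 1) : xq z (w * u) v = xq z u v := by
  have h5 : (w * u) ^ 5 = u ^ 5 := by rw [mul_pow, hw, one_mul]
  have h10 : (w * u) ^ 10 = u ^ 10 := by
    rw [show (10 : ℕ) = 5 * 2 from rfl, pow_mul, h5, ← pow_mul]
  unfold xq
  rw [h5, h10]

theorem yq_rot (z w u v : R) (hw : w ^ 5 = 1) : yq z (w * u) v = yq z u v := by
  have h5 : (w * u) ^ 5 = u ^ 5 := by rw [mul_pow, hw, one_mul]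
  have h10 : (w * u) ^ 10 = u ^ 10 := by
    rw [show (10 : ℕ) = 5 * 2 from rfl, pow_mul, h5, ← pow_mul]
  have h15 : (w * u) ^ 15 = u ^ 15 := by
    rw [show (15 : ℕ) = 5 * 3 from rfl, pow_mul, h5, ← pow_mul]
  unfold yq
  rw [h5, h10, h15]

theorem pow_rot (w u : R) (hw : w ^ 5 = 1) (k : ℕ) : (w * u) ^ (5 * k) = u ^ (5 * k) := by
  rw [pow_mul, mul_pow, hw, one_mul, ← pow_mul]

theorem kH_rot (w u v : R) (hw : w ^ 5 = 1) : kH (w * u) v = kH u v := by
  unfold kH
  rw [show (20 : ℕ) = 5 * 4 from rfl, show (15 : ℕ) = 5 * 3 from rfl,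
    show (10 : ℕ) = 5 * 2 from rfl, pow_rot w u hw 4, pow_rot w u hw 3, pow_rot w u hw 2,
    show (w * u) ^ 5 = u ^ 5 from by rw [mul_pow, hw, one_mul]]

theorem kT_rot (w u v : R) (hw : w ^ 5 = 1) : kT (w * u) v = kT u v := by
  unfold kT
  rw [show (30 : ℕ) = 5 * 6 from rfl, show (25 : ℕ) = 5 * 5 from rfl,
    show (20 : ℕ) = 5 * 4 from rfl, show (10 : ℕ) = 5 * 2 from rfl, pow_rot w u hw 6,
    pow_rot w u hw 5, pow_rot w u hw 4, pow_rot w u hw 2,
    show (w * u) ^ 5 = u ^ 5 from by rw [mul_pow, hw, one_mul]]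

theorem kf_rot (w u v : R) (hw : w ^ 5 = 1) : kf (w * u) v = w * kf u v := by
  unfold kf
  rw [show (10 : ℕ) = 5 * 2 from rfl, pow_rot w u hw 2,
    show (w * u) ^ 5 = u ^ 5 from by rw [mul_pow, hw, one_mul]]
  ring

theorem kH_D (u v : R) : kH v (-u) = kH u v := by unfold kH; ring
theorem kT_D (u v : R) : kT v (-u) = kT u v := by unfold kT; ring
theorem kf_D (u v : R) : kf v (-u) = kf u v := by unfold kf; ring

theorem pow_five_eq_one (z : R) (hz : z ^ 4 + z ^ 3 + z ^ 2 + z + 1 = 0) : z ^ 5 = 1 := by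
  linear_combination (z - 1) * hz

end ring

section field

variable {K : Type*} [Field K]

/-- `(u,v)` is a parameter of the curve with invariants `H`, `T`. -/
structure Par (H T u v : K) : Prop where
  hH : kH u v = H
  hT : kT u v = T
  hf : kf u v ≠ 0

namespace Par

variable {H T u v : K}

theorem D (hp : Par H T u v) : Par H T v (-u) :=
  ⟨by rw [kH_D, hp.hH], by rw [kT_D, hp.hT], by rw [kf_D]; exact hp.hf⟩

theorem rot (hp : Par H T u v) {w : K} (hw : w ^ 5 = 1) : Par H T (w * u) v := by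
  refine ⟨by rw [kH_rot w u v hw, hp.hH], by rw [kT_rot w u v hw, hp.hT], ?_⟩
  rw [kf_rot w u v hw]
  refine mul_ne_zero ?_ hp.hf
  rintro rfl
  simp at hw

theorem disc (hp : Par H T u v) (h6 : (6 : K) ≠ 0) : H ^ 3 - (-T) ^ 2 ≠ 0 := by
  rw [neg_sq, ← hp.hH, ← hp.hT, klein_relation]
  have h1728 : (1728 : K) ≠ 0 := by
    have : (1728 : K) = 6 ^ 3 * 2 ^ 3 := by norm_num
    rw [this]
    exact mul_ne_zero (pow_ne_zero 3 h6) (pow_ne_zero 3 fun h => h6 (by linear_combination 3 * h))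
  exact mul_ne_zero (neg_ne_zero.2 h1728) (pow_ne_zero 5 hp.hf)

end Par

/-- a point given by its coordinates (junk value `0` if they do not define a point). -/
noncomputable def mk (E : WeierstrassCurve.Affine K) (x y : K) : E.Point := by
  classical exact if h : E.Nonsingular x y then Point.some x y h else 0

theorem mk_of {E : WeierstrassCurve.Affine K} {x y : K} (h : E.Nonsingular x y) :
    mk E x y = Point.some x y h := by
  unfold mk
  exact dif_pos h

variable (H T : K)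

/-- the curve -/
abbrev Ecv : WeierstrassCurve.Affine K := (shortW H (-T)).toAffine

/-- the rational section -/
noncomputable def ptR (u v : K) : (Ecv H T).Point := mk (Ecv H T) (X1 u v) (Y1 u v)

/-- the `μ₅`-section -/
noncomputable def ptQ (z c u v : K) : (Ecv H T).Point :=
  mk (Ecv H T) (c * xq z u v) (c * yq z u v)

variable {H T}
variable {z c u v : K}

theorem xq_eq (hc : 5 * c = 1) (z u v : K) : xq z u v = 5 * (c * xq z u v) := by
  linear_combination (-(xq z u v)) * hc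

theorem yq_eq (hc : 5 * c = 1) (z u v : K) : yq z u v = 5 * (c * yq z u v) := by
  linear_combination (-(yq z u v)) * hc

theorem nonsing_R (h6 : (6 : K) ≠ 0) (hp : Par H T u v) :
    (Ecv H T).Nonsingular (X1 u v) (Y1 u v) := by
  refine shortW_nonsingular h6 H (-T) _ _ (hp.disc h6) ?_
  rw [eq_R1, hp.hH, hp.hT]
  ring

theorem nonsing_R_neg (h6 : (6 : K) ≠ 0) (hp : Par H T u v) :
    (Ecv H T).Nonsingular (X1 u v) (-Y1 u v) := by
  refine shortW_nonsingular h6 H (-T) _ _ (hp.disc h6) ?_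
  rw [neg_sq, eq_R1, hp.hH, hp.hT]
  ring

theorem nonsing_Q (h30 : (30 : K) ≠ 0) (hz : z ^ 4 + z ^ 3 + z ^ 2 + z + 1 = 0)
    (hc : 5 * c = 1) (hp : Par H T u v) :
    (Ecv H T).Nonsingular (c * xq z u v) (c * yq z u v) := by
  have h6 : (6 : K) ≠ 0 := fun h => h30 (by linear_combination 5 * h)
  have h5 : (5 : K) ≠ 0 := fun h => h30 (by linear_combination 6 * h)
  refine shortW_nonsingular h6 H (-T) _ _ (hp.disc h6) ?_
  have I := eq_Q z u v hz
  rw [xq_eq hc, yq_eq hc, hp.hH, hp.hT] at I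
  apply mul_left_cancel₀ (pow_ne_zero 3 h5)
  linear_combination I

theorem nonsing_Q_neg (h30 : (30 : K) ≠ 0) (hz : z ^ 4 + z ^ 3 + z ^ 2 + z + 1 = 0)
    (hc : 5 * c = 1) (hp : Par H T u v) :
    (Ecv H T).Nonsingular (c * xq z u v) (-(c * yq z u v)) := by
  have h := nonsing_Q h30 hz hc hp
  have h6 : (6 : K) ≠ 0 := fun h => h30 (by linear_combination 5 * h)
  refine shortW_nonsingular h6 H (-T) _ _ (hp.disc h6) ?_
  rw [neg_sq]
  exact (shortW_equation H (-T) _ _).1 h.1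

theorem Y1_ne_zero (h6 : (6 : K) ≠ 0) (hp : Par H T u v) : Y1 u v ≠ 0 := by
  intro h
  have := cert_Y1 u v
  rw [h, zero_mul] at this
  have h108 : (108 : K) ≠ 0 := by
    have : (108 : K) = 6 ^ 2 * 3 := by norm_num
    rw [this]
    exact mul_ne_zero (pow_ne_zero 2 h6) fun h => h6 (by linear_combination 2 * h)
  exact mul_ne_zero h108 (pow_ne_zero 2 hp.hf) this.symm

theorem yq_ne_zero (h30 : (30 : K) ≠ 0) (hz : z ^ 4 + z ^ 3 + z ^ 2 + z + 1 = 0)
    (hp : Par H T u v) : yq z u v ≠ 0 := by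
  intro h
  have := cert_yq z u v hz
  rw [h, zero_mul] at this
  have h540 : (540 : K) ≠ 0 := by
    have : (540 : K) = 30 * 6 * 3 := by norm_num
    rw [this]
    exact mul_ne_zero (mul_ne_zero h30 fun h => h30 (by linear_combination 5 * h))
      fun h => h30 (by linear_combination 10 * h)
  exact mul_ne_zero h540 (pow_ne_zero 2 hp.hf) this.symm

theorem X1_ne_xq (h30 : (30 : K) ≠ 0) (hz : z ^ 4 + z ^ 3 + z ^ 2 + z + 1 = 0)
    (hp : Par H T u v) : 5 * X1 u v - xq z u v ≠ 0 := by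
  intro h
  have := cert_X1_sub z u v hz
  rw [h, zero_mul] at this
  have h180 : (180 : K) ≠ 0 := by
    have : (180 : K) = 30 * 6 := by norm_num
    rw [this]
    exact mul_ne_zero h30 fun h => h30 (by linear_combination 5 * h)
  exact mul_ne_zero h180 (pow_ne_zero 2 hp.hf) this.symm

variable [DecidableEq K]

theorem ptR_neg (h6 : (6 : K) ≠ 0) (hp : Par H T u v) : ptR H T (-u) (-v) = -ptR H T u v := by
  unfold ptR
  rw [X1_neg, Y1_neg, mk_of (nonsing_R h6 hp), mk_of (nonsing_R_neg h6 hp), neg_some_short]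

theorem ptR_dbl (h6 : (6 : K) ≠ 0) (hp : Par H T u v) :
    ptR H T u v + ptR H T u v = ptR H T v (-u) := by
  unfold ptR
  rw [mk_of (nonsing_R h6 hp), mk_of (nonsing_R h6 hp.D)]
  have h2 : (2 : K) ≠ 0 := fun h => h6 (by linear_combination 3 * h)
  refine add_self_eq_of_tangent H (-T) _ _ (mul_ne_zero h2 (Y1_ne_zero h6 hp)) ?_ ?_
  · rw [← hp.hH]; exact dbl_R1_x u v
  · rw [← hp.hH]; exact dbl_R1_y u v

theorem ptQ_neg (h30 : (30 : K) ≠ 0) (hz : z ^ 4 + z ^ 3 + z ^ 2 + z + 1 = 0)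
    (hc : 5 * c = 1) (hp : Par H T u v) : ptQ H T z c (-u) (-v) = -ptQ H T z c u v := by
  unfold ptQ
  rw [xq_neg, yq_neg, mul_neg, mk_of (nonsing_Q h30 hz hc hp), mk_of (nonsing_Q_neg h30 hz hc hp),
    neg_some_short]

theorem ptQ_rot (z c : K) {w : K} (hw : w ^ 5 = 1) (u v : K) :
    ptQ H T z c (w * u) v = ptQ H T z c u v := by
  unfold ptQ
  rw [xq_rot z w u v hw, yq_rot z w u v hw]

theorem ptQ_dbl (h30 : (30 : K) ≠ 0) (hz : z ^ 4 + z ^ 3 + z ^ 2 + z + 1 = 0)
    (hc : 5 * c = 1) (hp : Par H T u v) :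
    ptQ H T z c u v + ptQ H T z c u v = -ptQ H T z c v (-u) := by
  have h6 : (6 : K) ≠ 0 := fun h => h30 (by linear_combination 5 * h)
  have h5 : (5 : K) ≠ 0 := fun h => h30 (by linear_combination 6 * h)
  have h2 : (2 : K) ≠ 0 := fun h => h6 (by linear_combination 3 * h)
  have hc0 : c ≠ 0 := by rintro rfl; simp at hc
  unfold ptQ
  rw [mk_of (nonsing_Q h30 hz hc hp), mk_of (nonsing_Q h30 hz hc hp.D),
    neg_some_short _ _ _ (nonsing_Q_neg h30 hz hc hp.D)]
  refine add_self_eq_of_tangent H (-T) _ _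
    (mul_ne_zero h2 (mul_ne_zero hc0 (yq_ne_zero h30 hz hp))) ?_ ?_
  · have I := dbl_Q_x z u v hz
    rw [xq_eq hc z u v, yq_eq hc z u v, xq_eq hc z v (-u), hp.hH] at I
    apply mul_left_cancel₀ (pow_ne_zero 4 h5)
    linear_combination I
  · have I := dbl_Q_y z u v hz
    rw [xq_eq hc z u v, yq_eq hc z u v, xq_eq hc z v (-u), yq_eq hc z v (-u), hp.hH] at I
    apply mul_left_cancel₀ (pow_ne_zero 3 h5)
    linear_combination I

theorem ptR_add_ptQ (h30 : (30 : K) ≠ 0) (hz : z ^ 4 + z ^ 3 + z ^ 2 + z + 1 = 0)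
    (hc : 5 * c = 1) (hp : Par H T u v) :
    ptR H T u v + ptQ H T z c u v = ptR H T (z * u) v := by
  have h6 : (6 : K) ≠ 0 := fun h => h30 (by linear_combination 5 * h)
  have h5 : (5 : K) ≠ 0 := fun h => h30 (by linear_combination 6 * h)
  unfold ptR ptQ
  rw [mk_of (nonsing_R h6 hp), mk_of (nonsing_Q h30 hz hc hp),
    mk_of (nonsing_R h6 (hp.rot (pow_five_eq_one z hz)))]
  refine add_eq_of_chord H (-T) _ _ _ ?_ ?_ ?_
  · intro h
    apply X1_ne_xq h30 hz hp
    rw [xq_eq hc z u v, ← h]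
    ring
  · have I := add_RQ_x z u v hz
    rw [xq_eq hc z u v, yq_eq hc z u v] at I
    apply mul_left_cancel₀ (pow_ne_zero 3 h5)
    linear_combination I
  · have I := add_RQ_y z u v hz
    rw [xq_eq hc z u v, yq_eq hc z u v] at I
    apply mul_left_cancel₀ h5
    linear_combination I

end field

end Fermat.Agent.S52.B
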