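import Fermat.Agent.S52.Defs

/-!
# S52, Node B1: the two basic 5-torsion sections and their polynomial identities

`(X1, Y1)` is a section of order 5 with integer coefficients; `(xq/5, yq/5)` is the section
`R1(ζu,v) - R1(u,v)`, which only depends on `u^5, v^5`.  All identities are machine generated
(exact arithmetic in `ℚ(ζ₅)[u,v]`) and checked here by `ring` / `linear_combination`.
-/

set_option autoImplicit false
set_option maxHeartbeats 4000000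

namespace Fermat.Agent.S52.B

variable {R : Type*} [CommRing R]

/-- `x`-coordinate of the rational section. -/
def X1 (u v : R) : R :=
  3*u^10 + 36*u^8*v^2 - 36*u^7*v^3 + 72*u^6*v^4 + 90*u^5*v^5 + 180*u^4*v^6 + 108*u^3*v^7 + 72*u^2*v^8 + 36*u*v^9 + 3*v^10

/-- `y`-coordinate of the rational section. -/
def Y1 (u v : R) : R :=
  108*u^13*v^2 + 108*u^12*v^3 + 432*u^11*v^4 + 540*u^9*v^6 + 648*u^8*v^7 + 2268*u^7*v^8 +
  3132*u^6*v^9 + 2700*u^5*v^10 + 1620*u^4*v^11 + 972*u^3*v^12 + 432*u^2*v^13 + 108*u*v^14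

/-- `5 *` the `x`-coordinate of the `μ₅`-section. -/
def xq (z u v : R) : R :=
  (-57 + 36 * (z^2 + z^3)) * v^10 + (-198 - 396 * (z^2 + z^3)) * u^5 * v^5
    + (-93 - 36 * (z^2 + z^3)) * u^10

/-- `5 *` the `y`-coordinate of the `μ₅`-section. -/
def yq (z u v : R) : R :=
  (-216 - 432*z - 324*z^2 - 108*z^3) * v^15 + (2484 + 4968*z + 3456*z^2 + 1512*z^3) * u^5 * v^10
    + (-972 - 1944*z + 1512*z^2 - 3456*z^3) * u^10 * v^5 + (-108 - 216*z + 108*z^2 - 324*z^3) * u^15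

theorem eq_R1 (u v : R) : Y1 u v ^ 2 = X1 u v ^ 3 - 27 * kH u v * X1 u v + 54 * kT u v := by
  unfold Y1 X1 kH kT; ring

theorem dbl_R1_x (u v : R) :
    (3 * X1 u v ^ 2 - 27 * kH u v) ^ 2 = (2 * X1 u v + X1 v (-u)) * (2 * Y1 u v) ^ 2 := by
  unfold Y1 X1 kH; ring

theorem dbl_R1_y (u v : R) :
    (-Y1 v (-u) - Y1 u v) * (2 * Y1 u v) = (3 * X1 u v ^ 2 - 27 * kH u v) * (X1 v (-u) - X1 u v) := by
  unfold Y1 X1 kH; ring

theorem cert_Y1 (u v : R) :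
    Y1 u v * (u^9 - u^8*v - 3*u^7*v^2 + 7*u^6*v^3 - 7*u^4*v^5 + 7*u^3*v^6 - 4*u^2*v^7 + u*v^8) = 108 * kf u v ^ 2 := by
  unfold Y1 kf; ring

theorem eq_Q (z u v : R) (hz : z^4 + z^3 + z^2 + z + 1 = 0) :
    5 * yq z u v ^ 2 = xq z u v ^ 3 - 675 * kH u v * xq z u v + 6750 * kT u v := by
  unfold yq xq kH kT
  linear_combination
    (793152*u^30 - 559872*z*u^30 + 793152*z^2*u^30 + 93312*z^4*u^30 + 46656*z^5*u^30 +
      16842816*u^25*v^5 - 12643776*z*u^25*v^5 + 16842816*z^2*u^25*v^5 + 3079296*z^4*u^25*v^5 +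
      1539648*z^5*u^25*v^5 + 81414720*u^20*v^10 - 73249920*z*u^20*v^10 + 81414720*z^2*u^20*v^10
      + 33592320*z^4*u^20*v^10 + 16796160*z^5*u^20*v^10 - 81414720*u^15*v^15 -
      14230080*z*u^15*v^15 - 81414720*z^2*u^15*v^15 + 118039680*z^4*u^15*v^15 +
      59019840*z^5*u^15*v^15 + 58553280*u^10*v^20 + 73249920*z*u^10*v^20 +
      58553280*z^2*u^10*v^20 - 33592320*z^4*u^10*v^20 - 16796160*z^5*u^10*v^20 -
      8817984*u^5*v^25 - 12643776*z*u^5*v^25 - 8817984*z^2*u^5*v^25 + 3079296*z^4*u^5*v^25 +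
      1539648*z^5*u^5*v^25 + 373248*v^30 + 559872*z*v^30 + 373248*z^2*v^30 - 93312*z^4*v^30 -
      46656*z^5*v^30) * hz

theorem dbl_Q_x (z u v : R) (hz : z^4 + z^3 + z^2 + z + 1 = 0) :
    (3 * xq z u v ^ 2 - 675 * kH u v) ^ 2 = 5 * (2 * xq z u v + xq z v (-u)) * (2 * yq z u v) ^ 2 := by
  unfold yq xq kH
  linear_combination
    (695361024*u^40 - 468612864*z*u^40 + 910351872*z^2*u^40 + 33592320*z^3*u^40 +
      216670464*z^4*u^40 + 201553920*z^5*u^40 + 30233088*z^6*u^40 + 45349632*z^7*u^40 +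
      15116544*z^8*u^40 + 14429581056*u^35*v^5 - 10163356416*z*u^35*v^5 +
      21495725568*z^2*u^35*v^5 + 974177280*z^3*u^35*v^5 + 7182038016*z^4*u^35*v^5 +
      6600890880*z^5*u^35*v^5 + 1330255872*z^6*u^35*v^5 + 1995383808*z^7*u^35*v^5 +
      665127936*z^8*u^35*v^5 + 63460931328*u^30*v^10 - 52005950208*z*u^30*v^10 +
      139868342784*z^2*u^30*v^10 + 7793418240*z^3*u^30*v^10 + 79341700608*z^4*u^30*v^10 +
      71030960640*z^5*u^30*v^10 + 21828289536*z^6*u^30*v^10 + 32742434304*z^7*u^30*v^10 +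
      10914144768*z^8*u^30*v^10 - 122422171392*u^25*v^15 + 39398752512*z*u^25*v^15 +
      137710036224*z^2*u^25*v^15 - 1444469760*z^3*u^25*v^15 + 295054783488*z^4*u^25*v^15 +
      241260042240*z^5*u^25*v^15 + 156970192896*z^6*u^25*v^15 + 235455289344*z^7*u^25*v^15 +
      78485096448*z^8*u^25*v^15 + 3535591680*u^20*v^20 + 55586891520*z*u^20*v^20 -
      126911784960*z^2*u^20*v^20 - 133697433600*z^3*u^20*v^20 + 65765364480*z^4*u^20*v^20 -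
      87927897600*z^5*u^20*v^20 + 398925596160*z^6*u^20*v^20 + 598388394240*z^7*u^20*v^20 +
      199462798080*z^8*u^20*v^20 + 37601563392*u^15*v^25 - 33268154112*z*u^15*v^25 -
      4516487424*z^2*u^15*v^25 + 219458626560*z^3*u^15*v^25 + 358987686912*z^4*u^15*v^25 +
      194768271360*z^5*u^15*v^25 - 156970192896*z^6*u^15*v^25 - 235455289344*z^7*u^15*v^25 -
      78485096448*z^8*u^15*v^25 + 27349187328*u^10*v^30 + 65693140992*z*u^10*v^30 +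
      43122461184*z^2*u^10*v^30 - 52840719360*z^3*u^10*v^30 - 102560712192*z^4*u^10*v^30 -
      50237314560*z^5*u^10*v^30 + 21828289536*z^6*u^10*v^30 + 32742434304*z^7*u^10*v^30 +
      10914144768*z^8*u^10*v^30 - 5821549056*u^5*v^35 - 11209757184*z*u^5*v^35 -
      7344960768*z^2*u^5*v^35 + 4568555520*z^3*u^5*v^35 + 9446160384*z^4*u^5*v^35 +
      4484574720*z^5*u^5*v^35 - 1330255872*z^6*u^5*v^35 - 1995383808*z^7*u^5*v^35 -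
      665127936*z^8*u^5*v^35 + 275457024*v^40 + 497166336*z*v^40 + 322486272*z^2*v^40 -
      134369280*z^3*v^40 - 287214336*z^4*v^40 - 134369280*z^5*v^40 + 30233088*z^6*v^40 +
      45349632*z^7*v^40 + 15116544*z^8*v^40) * hz

theorem dbl_Q_y (z u v : R) (hz : z^4 + z^3 + z^2 + z + 1 = 0) :
    5 * (yq z v (-u) - yq z u v) * (2 * yq z u v) =
      (3 * xq z u v ^ 2 - 675 * kH u v) * (xq z v (-u) - xq z u v) := by
  unfold yq xq kH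
  linear_combination
    (-1259712*u^30 - 139968*z*u^30 - 2426112*z^2*u^30 - 559872*z^4*u^30 - 279936*z^5*u^30 -
      26407296*u^25*v^5 - 1119744*z*u^25*v^5 - 52068096*z^2*u^25*v^5 - 18475776*z^4*u^25*v^5 -
      9237888*z^5*u^25*v^5 - 121072320*u^20*v^10 + 25427520*z*u^20*v^10 -
      261040320*z^2*u^20*v^10 - 201553920*z^4*u^20*v^10 - 100776960*z^5*u^20*v^10 +
      185224320*u^15*v^15 + 213684480*z*u^15*v^15 + 185224320*z^2*u^15*v^15 -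
      708238080*z^4*u^15*v^15 - 354119040*z^5*u^15*v^15 - 18895680*u^10*v^20 -
      165395520*z*u^10*v^20 - 158863680*z^2*u^10*v^20 + 201553920*z^4*u^10*v^20 +
      100776960*z^5*u^10*v^20 - 746496*u^5*v^25 + 24541056*z*u^5*v^25 + 24914304*z^2*u^5*v^25 -
      18475776*z^4*u^5*v^25 - 9237888*z^5*u^5*v^25 + 93312*v^30 - 1026432*z*v^30 -
      1073088*z^2*v^30 + 559872*z^4*v^30 + 279936*z^5*v^30) * hz

theorem add_RQ_x (z u v : R) (hz : z^4 + z^3 + z^2 + z + 1 = 0) :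
    5 * (yq z u v - 5 * Y1 u v) ^ 2 =
      (5 * X1 u v + xq z u v + 5 * X1 (z * u) v) * (xq z u v - 5 * X1 u v) ^ 2 := by
  unfold yq xq X1 Y1
  linear_combination
    (968112*u^30 - 734832*z*u^30 + 909792*z^2*u^30 - 3888*z^4*u^30 + 241056*z^5*u^30 -
      194400*z^6*u^30 + 97200*z^7*u^30 - 97200*z^9*u^30 + 19440*z^10*u^30 - 19440*z^11*u^30 -
      19440*z^12*u^30 + 1516320*u^28*v^2 - 349920*z*u^28*v^2 - 738720*z^2*u^28*v^2 +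
      2332800*z^3*u^28*v^2 - 2527200*z^4*u^28*v^2 + 1749600*z^5*u^28*v^2 - 583200*z^6*u^28*v^2
      - 972000*z^7*u^28*v^2 + 233280*z^8*u^28*v^2 - 427680*z^9*u^28*v^2 - 233280*z^10*u^28*v^2
      - 349920*u^27*v^3 + 1516320*z*u^27*v^3 - 2760480*z^2*u^27*v^3 + 2332800*z^3*u^27*v^3 -
      972000*z^4*u^27*v^3 - 583200*z^5*u^27*v^3 + 1749600*z^6*u^27*v^3 - 427680*z^7*u^27*v^3 +
      233280*z^8*u^27*v^3 + 427680*z^9*u^27*v^3 + 1185840*u^26*v^4 + 3479760*z*u^26*v^4 -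
      6143040*z^2*u^26*v^4 + 9331200*z^3*u^26*v^4 - 7387200*z^4*u^26*v^4 + 1652400*z^5*u^26*v^4
      - 1185840*z^6*u^26*v^4 - 2410560*z^7*u^26*v^4 - 466560*z^8*u^26*v^4 - 388800*z^9*u^26*v^4
      + 20886336*u^25*v^5 - 16687296*z*u^25*v^5 + 17659296*z^2*u^25*v^5 + 3273696*z^4*u^25*v^5
      + 1345248*z^5*u^25*v^5 + 194400*z^6*u^25*v^5 + 3304800*z^7*u^25*v^5 -
      1555200*z^9*u^25*v^5 + 427680*z^10*u^25*v^5 - 427680*z^11*u^25*v^5 - 427680*z^12*u^25*v^5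
      - 7484400*u^24*v^6 + 13316400*z*u^24*v^6 - 9525600*z^2*u^24*v^6 + 11664000*z^3*u^24*v^6 -
      17301600*z^4*u^24*v^6 + 4179600*z^5*u^24*v^6 - 8845200*z^6*u^24*v^6 -
      3693600*z^7*u^24*v^6 - 972000*z^9*u^24*v^6 + 41796000*u^23*v^7 - 24300000*z*u^23*v^7 -
      13608000*z^2*u^23*v^7 + 34525440*z^3*u^23*v^7 - 32581440*z^4*u^23*v^7 +
      25932960*z^5*u^23*v^7 + 1360800*z^6*u^23*v^7 - 15940800*z^7*u^23*v^7 +
      5132160*z^8*u^23*v^7 - 7853760*z^9*u^23*v^7 - 5132160*z^10*u^23*v^7 - 41018400*u^22*v^8 +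
      76010400*z*u^22*v^8 - 81764640*z^2*u^22*v^8 + 80015040*z^3*u^22*v^8 -
      75699360*z^4*u^22*v^8 + 6804000*z^5*u^22*v^8 + 14191200*z^6*u^22*v^8 -
      18545760*z^7*u^22*v^8 + 5132160*z^8*u^22*v^8 + 6881760*z^9*u^22*v^8 + 80870400*u^21*v^9 -
      7153920*z*u^21*v^9 - 114734880*z^2*u^21*v^9 + 152565120*z^3*u^21*v^9 -
      67456800*z^4*u^21*v^9 + 972000*z^5*u^21*v^9 + 16290720*z^6*u^21*v^9 -
      38452320*z^7*u^21*v^9 - 10264320*z^8*u^21*v^9 - 4471200*z^9*u^21*v^9 - 19945440*u^20*v^10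
      + 57270240*z*u^20*v^10 + 8592480*z^2*u^20*v^10 + 93312000*z^3*u^20*v^10 -
      104723280*z^4*u^20*v^10 + 2896560*z^5*u^20*v^10 + 2235600*z^6*u^20*v^10 +
      13510800*z^7*u^20*v^10 - 5346000*z^9*u^20*v^10 + 2313360*z^10*u^20*v^10 -
      2313360*z^11*u^20*v^10 - 2313360*z^12*u^20*v^10 + 63763200*u^19*v^11 - 777600*z*u^19*v^11
      - 135108000*z^2*u^19*v^11 + 93312000*z^3*u^19*v^11 - 60847200*z^4*u^19*v^11 -
      14968800*z^5*u^19*v^11 - 69012000*z^6*u^19*v^11 - 42962400*z^7*u^19*v^11 -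
      10692000*z^9*u^19*v^11 - 74358000*u^18*v^12 + 128012400*z*u^18*v^12 -
      164073600*z^2*u^18*v^12 + 193855680*z^3*u^18*v^12 - 368038080*z^4*u^18*v^12 +
      116698320*z^5*u^18*v^12 + 27702000*z^6*u^18*v^12 - 57931200*z^7*u^18*v^12 +
      27760320*z^8*u^18*v^12 - 33981120*z^9*u^18*v^12 - 27760320*z^10*u^18*v^12 +
      27799200*u^17*v^13 + 150660000*z*u^17*v^13 - 564965280*z^2*u^17*v^13 +
      413138880*z^3*u^17*v^13 - 294671520*z^4*u^17*v^13 + 44128800*z^5*u^17*v^13 +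
      41018400*z^6*u^17*v^13 - 151593120*z^7*u^17*v^13 + 27760320*z^8*u^17*v^13 +
      23289120*z^9*u^17*v^13 - 115765200*u^16*v^14 + 300522960*z*u^16*v^14 -
      671729760*z^2*u^16*v^14 + 807848640*z^3*u^16*v^14 - 575618400*z^4*u^16*v^14 -
      35283600*z^5*u^16*v^14 + 165453840*z^6*u^16*v^14 - 128420640*z^7*u^16*v^14 -
      55520640*z^8*u^16*v^14 - 1749600*z^9*u^16*v^14 - 226787040*u^15*v^15 +
      329430240*z*u^15*v^15 - 690120000*z^2*u^15*v^15 + 577368000*z^3*u^15*v^15 -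
      395176320*z^4*u^15*v^15 - 62868960*z^5*u^15*v^15 - 6415200*z^6*u^15*v^15 -
      122472000*z^7*u^15*v^15 - 583200*z^9*u^15*v^15 - 427680*z^10*u^15*v^15 +
      427680*z^11*u^15*v^15 + 427680*z^12*u^15*v^15 - 516909600*u^14*v^16 +
      500580000*z*u^14*v^16 - 623829600*z^2*u^14*v^16 + 326592000*z^3*u^14*v^16 -
      455090400*z^4*u^14*v^16 - 260301600*z^5*u^14*v^16 - 91951200*z^6*u^14*v^16 -
      21967200*z^7*u^14*v^16 + 972000*z^9*u^14*v^16 - 524685600*u^13*v^17 +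
      406879200*z*u^13*v^17 - 710920800*z^2*u^13*v^17 - 90512640*z^3*u^13*v^17 -
      430284960*z^4*u^13*v^17 - 180480960*z^5*u^13*v^17 + 17884800*z^6*u^13*v^17 -
      7581600*z^7*u^13*v^17 - 5132160*z^8*u^13*v^17 + 5715360*z^9*u^13*v^17 +
      5132160*z^10*u^13*v^17 - 644922000*u^12*v^18 + 58222800*z*u^12*v^18 -
      704194560*z^2*u^12*v^18 - 165162240*z^3*u^12*v^18 - 277914240*z^4*u^12*v^18 -
      52390800*z^5*u^12*v^18 + 5734800*z^6*u^12*v^18 + 16407360*z^7*u^12*v^18 -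
      5132160*z^8*u^12*v^18 - 4743360*z^9*u^12*v^18 - 715197600*u^11*v^19 -
      226320480*z*u^11*v^19 - 536505120*z^2*u^11*v^19 - 163062720*z^3*u^11*v^19 -
      77954400*z^4*u^11*v^19 - 20606400*z^5*u^11*v^19 - 22317120*z^6*u^11*v^19 +
      17068320*z^7*u^11*v^19 + 10264320*z^8*u^11*v^19 + 194400*z^9*u^11*v^19 -
      629544960*u^10*v^20 - 177603840*z*u^10*v^20 - 293777280*z^2*u^10*v^20 -
      75816000*z^3*u^10*v^20 - 59155920*z^4*u^10*v^20 - 10866960*z^5*u^10*v^20 +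
      5734800*z^6*u^10*v^20 + 17398800*z^7*u^10*v^20 + 97200*z^9*u^10*v^20 +
      19440*z^10*u^10*v^20 - 19440*z^11*u^10*v^20 - 19440*z^12*u^10*v^20 - 470059200*u^9*v^21 -
      232113600*z*u^9*v^21 - 205286400*z^2*u^9*v^21 - 29160000*z^3*u^9*v^21 +
      3499200*z^4*u^9*v^21 + 37324800*z^5*u^9*v^21 + 20995200*z^6*u^9*v^21 +
      2332800*z^7*u^9*v^21 - 324259200*u^8*v^22 - 180792000*z*u^8*v^22 - 87480000*z^2*u^8*v^22
      + 39424320*z^3*u^8*v^22 + 34058880*z^4*u^8*v^22 + 23561280*z^5*u^8*v^22 -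
      2332800*z^6*u^8*v^22 + 1166400*z^7*u^8*v^22 + 233280*z^8*u^8*v^22 - 233280*z^9*u^8*v^22 -
      233280*z^10*u^8*v^22 - 189540000*u^7*v^23 - 89229600*z*u^7*v^23 - 7931520*z^2*u^7*v^23 +
      41757120*z^3*u^7*v^23 + 23094720*z^4*u^7*v^23 + 4665600*z^5*u^7*v^23 -
      1166400*z^6*u^7*v^23 - 233280*z^7*u^7*v^23 + 233280*z^8*u^7*v^23 + 233280*z^9*u^7*v^23 -
      85147200*u^6*v^24 - 19128960*z*u^6*v^24 + 13296960*z^2*u^6*v^24 + 26127360*z^3*u^6*v^24 +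
      5832000*z^4*u^6*v^24 + 2332800*z^5*u^6*v^24 + 466560*z^6*u^6*v^24 - 466560*z^7*u^6*v^24 -
      466560*z^8*u^6*v^24 - 32145984*u^5*v^25 - 12643776*z*u^5*v^25 + 2846016*z^2*u^5*v^25 +
      11664000*z^3*u^5*v^25 + 5995296*z^4*u^5*v^25 + 2122848*z^5*u^5*v^25 - 583200*z^6*u^5*v^25
      - 583200*z^7*u^5*v^25 - 6998400*u^4*v^26 + 4665600*z*u^4*v^26 + 8164800*z^2*u^4*v^26 +
      5832000*z^3*u^4*v^26 + 1166400*z^4*u^4*v^26 - 1166400*z^5*u^4*v^26 - 1166400*z^6*u^4*v^26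
      + 466560*u^3*v^27 + 5365440*z*u^3*v^27 + 4199040*z^2*u^3*v^27 + 699840*z^3*u^3*v^27 -
      699840*z^4*u^3*v^27 - 699840*z^5*u^3*v^27 + 1866240*u^2*v^28 + 2799360*z*u^2*v^28 +
      933120*z^2*u^2*v^28 - 466560*z^3*u^2*v^28 - 466560*z^4*u^2*v^28 + 933120*u*v^29 +
      466560*z*u*v^29 - 233280*z^3*u*v^29 + 373248*v^30 + 559872*z*v^30 + 373248*z^2*v^30 -
      93312*z^4*v^30 - 46656*z^5*v^30) * hz

theorem add_RQ_y (z u v : R) (hz : z^4 + z^3 + z^2 + z + 1 = 0) :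
    (-Y1 (z * u) v - Y1 u v) * (xq z u v - 5 * X1 u v) =
      (yq z u v - 5 * Y1 u v) * (X1 (z * u) v - X1 u v) := by
  unfold yq xq X1 Y1
  linear_combination
    (-324*u^25 - 324*z*u^25 + 972*z^2*u^25 - 1296*z^3*u^25 + 972*z^4*u^25 - 324*z^5*u^25 -
      324*z^6*u^25 + 972*z^7*u^25 - 1296*z^8*u^25 + 972*z^9*u^25 + 6156*u^23*v^2 -
      13932*z*u^23*v^2 + 15552*z^2*u^23*v^2 - 15552*z^3*u^23*v^2 + 7776*z^4*u^23*v^2 +
      6156*z^5*u^23*v^2 - 13932*z^6*u^23*v^2 + 15552*z^7*u^23*v^2 - 11664*z^8*u^23*v^2 +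
      11664*z^9*u^23*v^2 - 3888*z^10*u^23*v^2 + 3888*z^12*u^23*v^2 + 13932*u^22*v^3 -
      6156*z*u^22*v^3 - 7776*z^2*u^22*v^3 + 15552*z^3*u^22*v^3 - 15552*z^4*u^22*v^3 +
      13932*z^5*u^22*v^3 - 6156*z^6*u^22*v^3 - 11664*z^7*u^22*v^3 + 11664*z^8*u^22*v^3 -
      3888*z^9*u^22*v^3 + 3888*z^11*u^22*v^3 + 32400*u^21*v^4 - 47952*z*u^21*v^4 +
      38880*z^2*u^21*v^4 - 31104*z^3*u^21*v^4 + 7776*z^4*u^21*v^4 + 32400*z^5*u^21*v^4 -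
      40176*z^6*u^21*v^4 + 46656*z^7*u^21*v^4 - 34992*z^8*u^21*v^4 + 19440*z^9*u^21*v^4 +
      15552*z^10*u^21*v^4 - 12636*u^20*v^5 - 12636*z*u^20*v^5 + 39528*z^2*u^20*v^5 -
      53784*z^3*u^20*v^5 + 39528*z^4*u^20*v^5 - 2916*z^5*u^20*v^5 - 2916*z^6*u^20*v^5 -
      9072*z^7*u^20*v^5 + 23976*z^8*u^20*v^5 - 9072*z^9*u^20*v^5 + 30780*u^19*v^6 -
      69660*z*u^19*v^6 + 77760*z^2*u^19*v^6 - 77760*z^3*u^19*v^6 + 58320*z^4*u^19*v^6 +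
      50220*z^5*u^19*v^6 - 89100*z^6*u^19*v^6 + 97200*z^7*u^19*v^6 - 38880*z^8*u^19*v^6 +
      38880*z^9*u^19*v^6 + 34992*u^18*v^7 - 128304*z*u^18*v^7 + 225504*z^2*u^18*v^7 -
      213840*z^3*u^18*v^7 + 104976*z^4*u^18*v^7 + 48600*z^5*u^18*v^7 - 91368*z^6*u^18*v^7 +
      73872*z^7*u^18*v^7 - 31104*z^8*u^18*v^7 + 69984*z^9*u^18*v^7 - 42768*z^10*u^18*v^7 +
      42768*z^12*u^18*v^7 + 259524*u^17*v^8 - 205092*z*u^17*v^8 + 31104*z^2*u^17*v^8 +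
      155520*z^3*u^17*v^8 - 151632*z^4*u^17*v^8 + 242028*z^5*u^17*v^8 - 121500*z^6*u^17*v^8 +
      85536*z^7*u^17*v^8 - 27216*z^8*u^17*v^8 + 54432*z^9*u^17*v^8 + 42768*z^11*u^17*v^8 +
      302940*u^16*v^9 - 446796*z*u^16*v^9 + 548208*z^2*u^16*v^9 - 326592*z^3*u^16*v^9 +
      31104*z^4*u^16*v^9 + 388476*z^5*u^16*v^9 - 232956*z^6*u^16*v^9 + 182736*z^7*u^16*v^9 -
      132192*z^8*u^16*v^9 + 58320*z^9*u^16*v^9 + 171072*z^10*u^16*v^9 + 171072*u^15*v^10 -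
      331128*z*u^15*v^10 + 442584*z^2*u^15*v^10 - 433512*z^3*u^15*v^10 + 539784*z^4*u^15*v^10 +
      161352*z^5*u^15*v^10 - 340848*z^6*u^15*v^10 + 325944*z^7*u^15*v^10 + 13608*z^8*u^15*v^10
      + 34344*z^9*u^15*v^10 + 82620*u^14*v^11 - 413100*z*u^14*v^11 + 913680*z^2*u^14*v^11 -
      699840*z^3*u^14*v^11 + 466560*z^4*u^14*v^11 + 325620*z^5*u^14*v^11 - 422820*z^6*u^14*v^11
      + 194400*z^7*u^14*v^11 + 233280*z^8*u^14*v^11 + 19440*z^9*u^14*v^11 + 210924*u^13*v^12 -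
      222588*z*u^13*v^12 + 742608*z^2*u^13*v^12 - 552096*z^3*u^13*v^12 + 517104*z^4*u^13*v^12 +
      164268*z^5*u^13*v^12 - 210924*z^6*u^13*v^12 + 334368*z^7*u^13*v^12 + 11664*z^8*u^13*v^12
      + 7776*z^9*u^13*v^12 + 3888*z^10*u^13*v^12 - 3888*z^12*u^13*v^12 + 337608*u^12*v^13 -
      578664*z*u^12*v^13 + 1251936*z^2*u^12*v^13 + 27216*z^3*u^12*v^13 - 256608*z^4*u^12*v^13 +
      355104*z^5*u^12*v^13 + 877392*z^6*u^12*v^13 + 69984*z^7*u^12*v^13 + 7776*z^8*u^12*v^13 +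
      3888*z^9*u^12*v^13 - 3888*z^11*u^12*v^13 + 805140*u^11*v^14 - 470772*z*u^11*v^14 +
      1461888*z^2*u^11*v^14 - 108864*z^3*u^11*v^14 + 190512*z^4*u^11*v^14 +
      1308636*z^5*u^11*v^14 - 29484*z^6*u^11*v^14 + 31104*z^7*u^11*v^14 + 15552*z^8*u^11*v^14 -
      15552*z^10*u^11*v^14 + 757512*u^10*v^15 - 214488*z*u^10*v^15 + 1147284*z^2*u^10*v^15 +
      564408*z^3*u^10*v^15 + 1147284*z^4*u^10*v^15 + 96552*z^5*u^10*v^15 - 648*z^6*u^10*v^15 +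
      324*z^7*u^10*v^15 + 648*z^8*u^10*v^15 + 324*z^9*u^10*v^15 + 806760*u^9*v^16 +
      223560*z*u^9*v^16 + 952560*z^2*u^9*v^16 + 952560*z^3*u^9*v^16 + 97200*z^4*u^9*v^16 +
      38880*z^5*u^9*v^16 + 19440*z^6*u^9*v^16 - 19440*z^8*u^9*v^16 + 499608*u^8*v^17 +
      410184*z*u^8*v^17 + 1096416*z^2*u^8*v^17 + 334368*z^3*u^8*v^17 + 38880*z^4*u^8*v^17 +
      27216*z^5*u^8*v^17 + 7776*z^6*u^8*v^17 - 19440*z^7*u^8*v^17 + 435456*u^7*v^18 +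
      540432*z*u^7*v^18 + 447120*z^2*u^7*v^18 + 171072*z^3*u^7*v^18 + 77760*z^4*u^7*v^18 -
      7776*z^5*u^7*v^18 - 85536*z^6*u^7*v^18 + 320760*u^6*v^19 + 293544*z*u^6*v^19 +
      209952*z^2*u^6*v^19 + 120528*z^3*u^6*v^19 + 15552*z^4*u^6*v^19 - 104976*z^5*u^6*v^19 +
      174960*u^5*v^20 + 174960*z*u^5*v^20 + 106920*z^2*u^5*v^20 + 19440*z^3*u^5*v^20 -
      87480*z^4*u^5*v^20 + 77760*u^4*v^21 + 77760*z*u^4*v^21 + 38880*z^2*u^4*v^21 -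
      38880*z^3*u^4*v^21 + 46656*u^3*v^22 + 23328*z*u^3*v^22 - 23328*z^2*u^3*v^22 +
      15552*u^2*v^23 - 7776*z*u^2*v^23) * hz

theorem cert_yq (z u v : R) (hz : z^4 + z^3 + z^2 + z + 1 = 0) :
    yq z u v * (-4*u^7*v^2 - 8*z*u^7*v^2 - 7*z^2*u^7*v^2 - z^3*u^7*v^2 + 3*u^2*v^7 + 6*z*u^2*v^7 -
      z^2*u^2*v^7 + 7*z^3*u^2*v^7) = 540 * kf u v ^ 2 := by
  unfold yq kf
  linear_combination
    (-108*u^22*v^2 + 1836*z*u^22*v^2 + 324*z^2*u^22*v^2 - 8316*u^17*v^7 + 22572*z*u^17*v^7 +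
      1188*z^2*u^17*v^7 - 77112*u^12*v^12 + 25704*z*u^12*v^12 - 25704*z^2*u^12*v^12 +
      20196*u^7*v^17 + 13068*z*u^7*v^17 + 10692*z^2*u^7*v^17 - 1188*u^2*v^22 - 1404*z*u^2*v^22
      - 756*z^2*u^2*v^22) * hz

theorem cert_X1_sub (z u v : R) (hz : z^4 + z^3 + z^2 + z + 1 = 0) :
    (5 * X1 u v - xq z u v) * (2*u^12*v^2 - z^2*u^12*v^2 - z^3*u^12*v^2 - 5*u^10*v^4 + 5*z^2*u^10*v^4 + 5*z^3*u^10*v^4 +
      5*u^9*v^5 - 5*z^2*u^9*v^5 - 5*z^3*u^9*v^5 + 5*u^8*v^6 - 10*z^2*u^8*v^6 - 10*z^3*u^8*v^6 +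
      7*u^7*v^7 + 14*z^2*u^7*v^7 + 14*z^3*u^7*v^7 - 15*u^5*v^9 - 10*z^2*u^5*v^9 -
      10*z^3*u^5*v^9 + 15*u^4*v^10 + 10*z^2*u^4*v^10 + 10*z^3*u^4*v^10 - 10*u^3*v^11 -
      5*z^2*u^3*v^11 - 5*z^3*u^3*v^11 + 3*u^2*v^12 + z^2*u^2*v^12 + z^3*u^2*v^12) = 180 * kf u v ^ 2 := by
  unfold xq X1 kf
  linear_combination
    (36*u^22*v^2 - 36*z*u^22*v^2 - 36*z^2*u^22*v^2 - 180*u^20*v^4 + 180*z*u^20*v^4 +
      180*z^2*u^20*v^4 + 180*u^19*v^5 - 180*z*u^19*v^5 - 180*z^2*u^19*v^5 + 360*u^18*v^6 -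
      360*z*u^18*v^6 - 360*z^2*u^18*v^6 - 108*u^17*v^7 + 108*z*u^17*v^7 + 108*z^2*u^17*v^7 -
      1620*u^15*v^9 + 1620*z*u^15*v^9 + 1620*z^2*u^15*v^9 + 1620*u^14*v^10 - 1620*z*u^14*v^10 -
      1620*z^2*u^14*v^10 + 4140*u^13*v^11 - 4140*z*u^13*v^11 - 4140*z^2*u^13*v^11 -
      5616*u^12*v^12 + 5616*z*u^12*v^12 + 5616*z^2*u^12*v^12 + 4140*u^10*v^14 -
      4140*z*u^10*v^14 - 4140*z^2*u^10*v^14 - 4140*u^9*v^15 + 4140*z*u^9*v^15 +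
      4140*z^2*u^9*v^15 + 1620*u^8*v^16 - 1620*z*u^8*v^16 - 1620*z^2*u^8*v^16 + 108*u^7*v^17 -
      108*z*u^7*v^17 - 108*z^2*u^7*v^17 - 360*u^5*v^19 + 360*z*u^5*v^19 + 360*z^2*u^5*v^19 +
      360*u^4*v^20 - 360*z*u^4*v^20 - 360*z^2*u^4*v^20 - 180*u^3*v^21 + 180*z*u^3*v^21 +
      180*z^2*u^3*v^21 + 36*u^2*v^22 - 36*z*u^2*v^22 - 36*z^2*u^2*v^22) * hz

end Fermat.Agent.S52.B
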